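import Fermat.Agent.Lifting.Curve.Rel
import Fermat.Agent.RT.Assembly.Residual
import Fermat.Agent.RT.Glue.Approx
import Fermat.Agent.EC.Rep.TWHypothesis
import Fermat.Agent.EC.Rep.Local.StrictOrdinary
import Fermat.Agent.CFT.Tangent.BaseChange

/-!
# The residual representation of a semistable curve over a finite field

`residual hΔ k` is `W[p]` with coefficients extended to a field `k` of characteristic `p`.
-/

set_option autoImplicit false

noncomputable section

open WeierstrassCurve Polynomial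
open scoped WeierstrassCurve.Affine TensorProduct
open Fermat.Agent.Arith

namespace Fermat.Agent.Lifting.Curve

local notation "Q̄" => AlgebraicClosure ℚ
local notation "GQ" => AlgebraicClosure ℚ ≃ₐ[ℚ] AlgebraicClosure ℚ

variable {W : WeierstrassCurve ℤ} {p : ℕ} [Fact p.Prime] (hΔ : W.Δ ≠ 0)
  (k : Type) [Field k] [CharP k p]

/-- `W[p]` over `k`. -/
def residual : ResidualGaloisRep k :=
  (EC.Rep.residualRep W p hΔ).baseChangeAlong (ZMod.castHom (dvd_refl p) k)

omit [Fact p.Prime] [CharP k p] in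
/-- The residual eigenvalue system of the curve. -/
def abar (W : WeierstrassCurve ℤ) (k : Type) [Field k] (ℓ : ℕ) : k := (W.apOfModel ℓ : k)

variable {k}

theorem charpoly_residual (σ : GQ) : LinearMap.charpoly ((residual hΔ k).ρ σ) =
    (LinearMap.charpoly ((EC.Rep.residualRep W p hΔ).ρ σ)).map (ZMod.castHom (dvd_refl p) k) := by
  letI := (ZMod.castHom (dvd_refl p) k).toAlgebra
  exact LinearMap.charpoly_baseChange _ k

theorem charpoly_residual_frobenius {ℓ : ℕ} (hℓ : ℓ.Prime) (hgood : W.IsGoodPrimeFor ℓ)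
    (hne : ℓ ≠ p) {A : ValuationSubring Q̄} (hA : A.LiesOverPrime ℓ) {σ : GQ}
    (hσ : A.IsFrobeniusAt σ ℓ) :
    LinearMap.charpoly ((residual hΔ k).ρ σ) =
      X ^ 2 - C (abar W k ℓ) * X + C (ℓ : k) := by
  rw [charpoly_residual, EC.Rep.charpoly_residualRep_frobenius _ hℓ hgood hne hA hσ]
  simp [abar]

theorem det_residual {σ : GQ} {a : ℕ} (ha : ∀ μ : Q̄, μ ^ p = 1 → σ μ = μ ^ a) :
    LinearMap.det ((residual hΔ k).ρ σ) = (a : k) := by
  letI := (ZMod.castHom (dvd_refl p) k).toAlgebra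
  have hn := EC.FrobTrace.card_rootsOfUnity_Qbar p
  refine (LinearMap.det_baseChange (A := k) _).trans ?_
  rw [EC.Rep.det_residualRep _ hn, Arith.modularCyclotomicCharacter_eq_natCast hn ha, map_natCast]

theorem detIsCyclotomic_residual :
    (GaloisRepAdic.ofResidualGaloisRep (residual hΔ k)).DetIsCyclotomic p :=
  CFT.Tangent.DetIsCyclotomic.baseChange (ZMod.castHom (dvd_refl p) k)
    (⟨fun x hx => (map_ne_zero_iff _ (RingHom.injective _)).mp hx.ne_zero |> Ne.isUnit⟩)
    (EC.Rep.detIsCyclotomic_residualRep hΔ)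

theorem isAbsolutelyIrreducible_residual (hp2 : p ≠ 2) (hirr : W.ModRepIsIrreducible p) :
    (residual hΔ k).IsAbsolutelyIrreducible := by
  letI := (ZMod.castHom (dvd_refl p) k).toAlgebra
  exact RT.Assembly.isAbsolutelyIrreducible_baseChange _ fun K =>
    EC.Rep.baseChange_residualRep_isIrreducible _ hp2 hirr K

/-- The Taylor–Wiles hypothesis. -/
theorem indexTwo_irreducible_residual (hW : W.IsSemistableModel) (hp2 : p ≠ 2)
    (hirr : W.ModRepIsIrreducible p) (K : Type) [Field K] [Algebra k K]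
    (G : Subgroup GQ) (hG : G.index = 2) (V : Submodule K ((residual hΔ k).baseChange K).V)
    (hV : ∀ σ ∈ G, ∀ x ∈ V, ((residual hΔ k).baseChange K).ρ σ x ∈ V) : V = ⊥ ∨ V = ⊤ := by
  letI := (ZMod.castHom (dvd_refl p) k).toAlgebra
  letI : Algebra (ZMod p) K := ((algebraMap k K).comp (algebraMap (ZMod p) k)).toAlgebra
  have : IsScalarTower (ZMod p) k K := IsScalarTower.of_algebraMap_eq fun _ => rfl
  set ρ := EC.Rep.residualRep W p hΔ
  let e : K ⊗[k] (k ⊗[ZMod p] ρ.V) ≃ₗ[K] K ⊗[ZMod p] ρ.V :=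
    TensorProduct.AlgebraTensorModule.cancelBaseChange (ZMod p) k K K ρ.V
  have he : ∀ σ : GQ, e.toLinearMap ∘ₗ ((ρ.ρ σ).baseChange k).baseChange K =
      (ρ.ρ σ).baseChange K ∘ₗ e.toLinearMap := fun σ => by
    ext v
    simp [e]
  rcases EC.Rep.residualRep_indexTwo_irreducible (hΔ := hΔ) hW hp2 hirr K G hG (V.map e.toLinearMap)
    (fun σ hσ x hx => by
      obtain ⟨w, hw, rfl⟩ := hx
      exact ⟨_, hV σ hσ w hw, LinearMap.congr_fun (he σ) w⟩) with h' | h'
  · exact Or.inl (Submodule.map_injective_of_injective e.injective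
      (h'.trans (Submodule.map_bot _).symm))
  · exact Or.inr (Submodule.map_injective_of_injective e.injective
      (h'.trans ((Submodule.map_top e.toLinearMap).trans e.range).symm))

theorem residual_eq_one_iff (σ : GQ) :
    (residual hΔ k).ρ σ = 1 ↔ (EC.Rep.residualRep W p hΔ).ρ σ = 1 := by
  letI := (ZMod.castHom (dvd_refl p) k).toAlgebra
  constructor
  · intro h
    refine LinearMap.ext fun x => ?_
    have h1 : (1 : k) ⊗ₜ[ZMod p] ((EC.Rep.residualRep W p hΔ).ρ σ x) = (1 : k) ⊗ₜ[ZMod p] x :=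
      LinearMap.congr_fun h ((1 : k) ⊗ₜ[ZMod p] x)
    exact Module.FaithfullyFlat.tensorProduct_mk_injective (A := ZMod p) (B := k) _ h1
  · intro h
    show LinearMap.baseChange k _ = 1
    rw [h, LinearMap.baseChange_one]
    rfl

theorem isUnramifiedAt_residual_iff (q : ℕ) :
    (residual hΔ k).IsUnramifiedAt q ↔ (EC.Rep.residualRep W p hΔ).IsUnramifiedAt q :=
  forall_congr' fun _ => forall_congr' fun _ => forall_congr' fun _ => forall_congr' fun _ =>
    residual_eq_one_iff hΔ _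

theorem isUnramifiedAt_residual {q : ℕ} (hq : q.Prime) (hgood : W.IsGoodPrimeFor q)
    (hqp : q ≠ p) : (residual hΔ k).IsUnramifiedAt q :=
  (isUnramifiedAt_residual_iff hΔ q).mpr (EC.Rep.isUnramifiedAt_residualRep hΔ hq hgood hqp)

theorem dvd_Δ_of_ramified {q : ℕ} (hq : q.Prime) (hqp : q ≠ p)
    (hram : ¬ (residual hΔ k).IsUnramifiedAt q) : (q : ℤ) ∣ W.Δ :=
  not_not.mp fun hgood => hram (isUnramifiedAt_residual hΔ hq hgood hqp)

theorem charpoly_residual_inertia (hW : W.IsSemistableModel) {q : ℕ} (hq : q.Prime) (hqp : q ≠ p)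
    {A : ValuationSubring Q̄} (hA : A.LiesOverPrime q) {σ : GQ}
    (hσ : σ ∈ A.inertiaSubgroupIn ℚ) :
    LinearMap.charpoly ((residual hΔ k).ρ σ) = (X - 1) ^ 2 := by
  have h := EC.Rep.isUnipotentOnInertiaAt_residualRep hΔ hq hqp
    (EC.Rep.semistable_not_dvd hW q hq) A hA σ hσ
  rw [charpoly_residual]
  exact (congrArg (Polynomial.map _) h).trans (by simp)

theorem isUnipotentOnInertiaAt_residual (hW : W.IsSemistableModel) {q : ℕ} (hq : q.Prime)
    (hqp : q ≠ p) :
    (GaloisRepAdic.ofResidualGaloisRep (residual hΔ k)).IsUnipotentOnInertiaAt q :=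
  fun _ hA _ hσ => charpoly_residual_inertia hΔ hW hq hqp hA hσ

/-- At a multiplicative odd `p` the residual representation is strictly ordinary. -/
theorem isStrictOrdinaryAt_residual (hW : W.IsSemistableModel) (hp2 : p ≠ 2)
    (hdvd : (p : ℤ) ∣ W.Δ) :
    (GaloisRepAdic.ofResidualGaloisRep (residual hΔ k)).IsStrictOrdinaryAt p :=
  CFT.Tangent.IsStrictOrdinaryAt.baseChange (ZMod.castHom (dvd_refl p) k)
    (⟨fun x hx => (map_ne_zero_iff _ (RingHom.injective _)).mp hx.ne_zero |> Ne.isUnit⟩)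
    (EC.Rep.isStrictOrdinaryAt_residualRep hΔ hp2 hdvd (hW p Fact.out hdvd))

/-- The sign relations on `W[p]`. -/
theorem signRelations_residualRep (hW : W.IsSemistableModel) {q : ℕ} (hq : q.Prime) (hqp : q ≠ p)
    (hqΔ : (q : ℤ) ∣ W.Δ) : SignRelations (EC.Rep.residualRep W p hΔ).ρ W q := by
  intro A hA σ hσ
  have hn : ¬ q ∣ p := fun h => hqp ((Nat.prime_dvd_prime_iff_eq hq Fact.out).mp h)
  have key := fun x : (EC.Rep.residualRep W p hΔ).V =>
    (isFrobSign_frobSign hΔ hW hq hqΔ).2 A hA σ hσ p hn (Subtype.val x) (by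
      rw [← natCast_zsmul]; exact (Submodule.mem_torsionBy_iff _ _).mp x.2)
  refine ⟨LinearMap.ext fun x => ?_, fun τ hτ => ⟨LinearMap.ext fun x => ?_,
    LinearMap.ext fun x => ?_, LinearMap.ext fun x => ?_⟩⟩ <;>
    simp only [Module.End.mul_apply, LinearMap.sub_apply, LinearMap.smul_apply,
      Module.End.one_apply, LinearMap.zero_apply, Int.cast_smul_eq_zsmul, sub_eq_zero] <;>
    apply Subtype.ext
  · exact (key x).1
  · exact ((key x).2 τ hτ).1
  · exact ((key x).2 τ hτ).2.1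
  · exact ((key x).2 τ hτ).2.2

theorem signRelations_residual (hW : W.IsSemistableModel) {q : ℕ} (hq : q.Prime) (hqp : q ≠ p)
    (hqΔ : (q : ℤ) ∣ W.Δ) : SignRelations (residual hΔ k).ρ W q := by
  letI := (ZMod.castHom (dvd_refl p) k).toAlgebra
  exact (signRelations_residualRep hΔ hW hq hqp hqΔ).map_baseChange k fun _ => rfl

/-- At a bad prime `q ≠ p` a Frobenius element has the eigenvalues `s q` and `s`. -/
theorem charpoly_residual_frobenius_bad (hW : W.IsSemistableModel) {q : ℕ} (hq : q.Prime)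
    (hqp : q ≠ p) (hqΔ : (q : ℤ) ∣ W.Δ) {A : ValuationSubring Q̄} (hA : A.LiesOverPrime q)
    {σ : GQ} (hσ : A.IsFrobeniusAt σ q) :
    LinearMap.charpoly ((residual hΔ k).ρ σ) =
      (X - C ((frobSign W q * q : ℤ) : k)) * (X - C ((frobSign W q : ℤ) : k)) := by
  have hs : ((frobSign W q : ℤ) : k) * ((frobSign W q : ℤ) : k) = 1 := by
    rw [← Int.cast_mul, frobSign_mul_self, Int.cast_one]
  have hs0 : ((frobSign W q : ℤ) : k) ≠ 0 := fun h => by rw [h, zero_mul] at hs; exact zero_ne_one hs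
  have hq0 : (q : k) ≠ 0 := fun h => hqp ((Nat.prime_dvd_prime_iff_eq Fact.out hq).mp
    ((CharP.cast_eq_zero_iff k p q).mp h)).symm
  refine charpoly_of_quadratic (residual hΔ k).finrank_eq _ ?_ hs0 ?_
    (signRelations_residual hΔ hW hq hqp hqΔ A hA σ hσ).1
  · push_cast
    exact mul_ne_zero hs0 hq0
  · rw [det_residual hΔ fun μ hμ => Arith.frobenius_root hA hq hσ hμ
      fun h => hqp ((Nat.prime_dvd_prime_iff_eq hq Fact.out).mp h)]
    push_cast
    linear_combination (-(q : k)) * hs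

/-- Characteristic polynomials split when `k` has the roots of the quadratics over `ZMod p`. -/
theorem exists_split_charpoly (hk : ∀ f : (ZMod p)[X], f.natDegree = 2 →
      ∃ x : k, (f.map (ZMod.castHom (dvd_refl p) k)).IsRoot x) (σ : GQ) :
    ∃ α β : k, LinearMap.charpoly ((residual hΔ k).ρ σ) = (X - C α) * (X - C β) := by
  set f := LinearMap.charpoly ((EC.Rep.residualRep W p hΔ).ρ σ) with hf
  have hdeg : f.natDegree = 2 := by
    rw [hf, LinearMap.charpoly_natDegree, (EC.Rep.residualRep W p hΔ).finrank_eq]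
  obtain ⟨x, hx⟩ := hk f hdeg
  have hxe : (LinearMap.charpoly ((residual hΔ k).ρ σ)).IsRoot x := by
    rw [charpoly_residual]; exact hx
  rw [EC.FrobTrace.charpoly_of_finrank_eq_two (residual hΔ k).finrank_eq] at hxe ⊢
  simp only [IsRoot.def, eval_add, eval_sub, eval_mul, eval_pow, eval_X, eval_C] at hxe
  refine ⟨x, LinearMap.trace k _ ((residual hΔ k).ρ σ) - x, ?_⟩
  rw [show LinearMap.det ((residual hΔ k).ρ σ) =
    x * (LinearMap.trace k _ ((residual hΔ k).ρ σ) - x) by linear_combination hxe]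
  rw [map_mul, map_sub]
  ring

open scoped Classical in
/-- The primes `q ≠ p` at which `W[p]` is ramified. -/
def ramifiedPrimes : Finset ℕ :=
  W.Δ.natAbs.primeFactors.filter fun q =>
    q ≠ p ∧ ¬ (EC.Rep.residualRep W p hΔ).IsUnramifiedAt q

theorem mem_ramifiedPrimes {q : ℕ} :
    q ∈ ramifiedPrimes (p := p) hΔ ↔ q.Prime ∧ q ≠ p ∧ ¬ (residual hΔ k).IsUnramifiedAt q := by
  simp only [ramifiedPrimes, Finset.mem_filter, Nat.mem_primeFactors,
    isUnramifiedAt_residual_iff hΔ]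
  refine ⟨fun h => ⟨h.1.1, h.2.1, h.2.2⟩, fun ⟨hq, hqp, hram⟩ => ⟨⟨hq, ?_,
    Int.natAbs_ne_zero.mpr hΔ⟩, hqp, hram⟩⟩
  exact Int.natCast_dvd.mp (dvd_Δ_of_ramified (k := k) hΔ hq hqp
    (by rwa [isUnramifiedAt_residual_iff hΔ]))

theorem dvd_Δ_of_mem_ramifiedPrimes {q : ℕ} (h : q ∈ ramifiedPrimes (p := p) hΔ) :
    (q : ℤ) ∣ W.Δ := by
  simp only [ramifiedPrimes, Finset.mem_filter, Nat.mem_primeFactors] at h
  exact Int.natCast_dvd.mpr h.1.2.1

section Coefficients

variable {O : Type} [CommRing O] [IsDomain O] [IsDiscreteValuationRing O]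
  [CharP (IsLocalRing.ResidueField O) p]

include hΔ in
/-- The Frobenius characteristic polynomials outside a finite set containing `p` and the bad
primes. -/
theorem hasCharpolys_residual {S : Finset ℕ} (hpS : p ∈ S)
    (hS : ∀ q : ℕ, q.Prime → (q : ℤ) ∣ W.Δ → q ∈ S) :
    RT.Glue.HasCharpolys (O := O) S (abar W (IsLocalRing.ResidueField O))
      (residual hΔ (IsLocalRing.ResidueField O)) := fun _ hℓ hℓS _ hA _ hs =>
  charpoly_residual_frobenius hΔ hℓ (fun h => hℓS (hS _ hℓ h)) (fun h => hℓS (h ▸ hpS)) hA hs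

end Coefficients

end Fermat.Agent.Lifting.Curve

end
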