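import Fermat.Agent.Lifting.Curve.Residual
import Fermat.Agent.RT.Lower.Avoiding
import Fermat.Agent.LevelRaising.IharaK
import Fermat.Agent.LevelRaising.Residual
import Fermat.Agent.Arith.Chebotarev.Main

/-!
# The auxiliary primes of the lifting argument
-/

set_option autoImplicit false

noncomputable section

open WeierstrassCurve
open scoped WeierstrassCurve.Affine
open Fermat.Agent.Arith

namespace Fermat.Agent.Lifting.Curve

local notation "Q̄" => AlgebraicClosure ℚ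
local notation "GQ" => AlgebraicClosure ℚ ≃ₐ[ℚ] AlgebraicClosure ℚ

variable {W : WeierstrassCurve ℤ} {p : ℕ} [Fact p.Prime] (hΔ : W.Δ ≠ 0)
  (k : Type) [Field k] [CharP k p]

include hΔ in
/-- Frobenius elements realise every element of the image of `W[p]`. -/
theorem exists_good_prime_eq (g : GQ) (S : Finset ℕ) :
    ∃ ℓ : ℕ, ℓ.Prime ∧ ℓ ∉ S ∧ W.IsGoodPrimeFor ℓ ∧ ℓ ≠ p ∧
      LinearMap.trace (ZMod p) _ ((EC.Rep.residualRep W p hΔ).ρ g) = (W.apOfModel ℓ : ZMod p) ∧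
      LinearMap.det ((EC.Rep.residualRep W p hΔ).ρ g) = (ℓ : ZMod p) := by
  obtain ⟨L, hLfin, hL⟩ := (EC.Rep.residualRep W p hΔ).factorsThroughFiniteLevel
  obtain ⟨ℓ, hℓ, hℓS, A, hA, σ, hσ, he⟩ := Arith.Chebotarev.exists_frobenius_eq
    (EC.Rep.residualRep W p hΔ).ρ L hL g (S ∪ insert p W.Δ.natAbs.primeFactors)
  simp only [Finset.mem_union, Finset.mem_insert, not_or] at hℓS
  have hgood : W.IsGoodPrimeFor ℓ := fun hdvd => hℓS.2.2
    (Nat.mem_primeFactors.mpr ⟨hℓ, Int.natCast_dvd.mp hdvd, Int.natAbs_ne_zero.mpr hΔ⟩)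
  refine ⟨ℓ, hℓ, hℓS.1, hgood, hℓS.2.1, ?_, ?_⟩
  · rw [← he]
    exact EC.FrobTrace.galoisTrace_frobenius W hℓ hgood hℓS.2.1 hA hσ
  · rw [← he]
    exact EC.FrobTrace.det_frobenius W hℓ hgood hℓS.2.1 hA hσ

include hΔ in
/-- A good prime outside `S` with `a_ℓ ≢ 1 + ℓ`. -/
theorem exists_abar_ne (hp2 : p ≠ 2) (hirr : W.ModRepIsIrreducible p) (S : Finset ℕ) :
    ∃ ℓ : ℕ, ℓ.Prime ∧ ℓ ∉ S ∧ W.IsGoodPrimeFor ℓ ∧ ℓ ≠ p ∧ abar W k ℓ ≠ 1 + (ℓ : k) := by
  obtain ⟨ℓ, hℓ, hℓS, hgood, hℓp, hne⟩ := EC.Rep.exists_apOfModel_ne hp2 hirr hΔ S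
  refine ⟨ℓ, hℓ, hℓS, hgood, hℓp, fun h => hne ((ZMod.castHom (dvd_refl p) k).injective ?_)⟩
  simpa [abar] using h

include hΔ in
/-- The auxiliary prime `a`: outside `S`, `a ≡ -1 (mod p)` and `a_a ≢ 0`, hence `a % p ≠ 1`,
`a_a² ≢ (1 + a)²`, and `a % 3 = 2` for `p = 3`. -/
theorem exists_prime_sq_ne (hW : W.IsSemistableModel) (hp2 : p ≠ 2)
    (hirr : W.ModRepIsIrreducible p) (S : Finset ℕ) :
    ∃ ℓ : ℕ, ℓ.Prime ∧ ℓ ∉ S ∧ W.IsGoodPrimeFor ℓ ∧ ℓ ≠ p ∧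
      abar W k ℓ ^ 2 ≠ (1 + (ℓ : k)) ^ 2 ∧ ℓ % p ≠ 1 ∧ (p = 3 → ℓ % 3 = 2) := by
  have hp : p.Prime := Fact.out
  set ρ := EC.Rep.residualRep W p hΔ
  have hc := complexConjugation_mul_self
  have h2 := EC.Rep.two_ne_zero_zmod (p := p) hp2
  have hdet := EC.Rep.det_residualRep_involution hΔ hp2 complexConjugation_mul_self
    EC.Rep.complexConjugation_ne_one
  have hdetχ : ∀ σ, LevelRaising.cycloChar p σ = 1 → LinearMap.det (ρ.ρ σ) = 1 := fun σ hσ => by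
    rw [EC.Rep.det_residualRep hΔ (IsAlgClosed.card_rootsOfUnity_eq Q̄ p) σ]
    exact congrArg Units.val hσ
  obtain ⟨h, hh, htr⟩ : ∃ h, LevelRaising.cycloChar p h = 1 ∧
      LinearMap.trace (ZMod p) ρ.V (ρ.ρ (complexConjugation * h)) ≠ 0 := by
    by_contra hno
    push Not at hno
    obtain ⟨X, hX, hcomm⟩ := RT.Lower.exists_semicommute h2 hc hdet
      ((EC.Rep.isIrreducible_residualRep_iff hΔ).mpr hirr) (LevelRaising.cycloChar p) hdetχ hno
    exact RT.Lower.false_of_semicommute h2 X hX hcomm (AlgebraicClosure (ZMod p))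
      (EC.Rep.baseChange_residualRep_isIrreducible hΔ hp2 hirr _)
      (fun G hG => EC.Rep.residualRep_indexTwo_irreducible (hΔ := hΔ) hW hp2 hirr _ G hG)
  obtain ⟨ℓ, hℓ, hℓS, hgood, hℓp, ht, hd⟩ := exists_good_prime_eq (p := p) hΔ
    (complexConjugation * h) S
  rw [map_mul, map_mul, hdet, hdetχ h hh, mul_one] at hd
  have h12 : (1 : ZMod p) ≠ -1 := fun e => h2 (by linear_combination e)
  have hmod : ℓ % p ≠ 1 := fun e => h12 (by
    rw [hd, ← ZMod.natCast_mod ℓ p, e, Nat.cast_one])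
  refine ⟨ℓ, hℓ, hℓS, hgood, hℓp, fun e => htr ?_, hmod, fun hp3 => ?_⟩
  · rw [ht]
    refine pow_eq_zero_iff two_ne_zero |>.mp ((ZMod.castHom (dvd_refl p) k).injective ?_)
    rw [map_pow, map_intCast, map_zero, show (W.apOfModel ℓ : k) = abar W k ℓ from rfl, e,
      show (ℓ : k) = -1 by rw [← map_natCast (ZMod.castHom (dvd_refl p) k), ← hd, map_neg, map_one],
      add_neg_cancel, zero_pow two_ne_zero]
  · subst hp3
    have := Nat.mod_lt ℓ (show 3 > 0 by norm_num)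
    have h0 : ℓ % 3 ≠ 0 := fun e => hℓp
      ((Nat.prime_dvd_prime_iff_eq Nat.prime_three hℓ).mp (Nat.dvd_of_mod_eq_zero e)).symm
    omega

/-- `residual` is the representation `RT.Lower.curveRho` of the lowering files. -/
theorem residual_eq_curveRho [inst : Algebra (ZMod p) k] :
    residual hΔ k = RT.Lower.curveRho W p hΔ k := by
  have h : (inferInstance : Algebra (ZMod p) k) = (ZMod.castHom (dvd_refl p) k).toAlgebra :=
    Algebra.algebra_ext _ _ fun x => RingHom.congr_fun (RingHom.ext_zmod (algebraMap (ZMod p) k) _) x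
  change inst = _ at h
  subst h
  rfl

omit [Fact p.Prime] [CharP k p] in
theorem abar_eq_curveAbar : abar W k = RT.Lower.curveAbar W k := rfl

include hΔ in
/-- An auxiliary prime for raising the level by `q` with `a_ℓ ≢ 1 + ℓ`, outside `S`. -/
theorem exists_auxPrime (hp2 : p ≠ 2) (hirr : W.ModRepIsIrreducible p) {q N : ℕ} (hq : q ≠ 0)
    (hN : N ≠ 0) (S : Finset ℕ) :
    ∃ ℓ : ℕ, LevelRaising.AuxPrime q N ℓ ∧ ℓ ∉ S ∧ W.IsGoodPrimeFor ℓ ∧ ℓ ≠ p ∧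
      abar W k ℓ ≠ 1 + (ℓ : k) := by
  classical
  have hM0 : LevelRaising.levelM q N ≠ 0 := by
    unfold LevelRaising.levelM
    split_ifs
    · exact hN
    · exact mul_ne_zero (pow_ne_zero _ two_ne_zero) hN
  set P := ∏ s ∈ S.filter Nat.Prime, s
  have hP : P ≠ 0 := Finset.prod_ne_zero_iff.mpr fun s hs => (Finset.mem_filter.mp hs).2.ne_zero
  set M := p * (LevelRaising.levelM q N * (N * q) * P)
  have hM : M ≠ 0 := mul_ne_zero (Fact.out : p.Prime).ne_zero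
    (mul_ne_zero (mul_ne_zero hM0 (mul_ne_zero hN hq)) hP)
  have := EC.FrobTrace.isElliptic_map_rat hΔ
  obtain ⟨ℓ, hℓ, hgood, hℓp, hℓM, hdvd, hne⟩ := LevelRaising.exists_special_prime
    (E := W.map (Int.castRingHom ℚ)) ⟨1, one_smul _ _⟩ (Fact.out : p.Prime) hp2 hirr M hM
  have hdiv : ∀ m : ℕ, m ∣ M → (m : ℤ) ∣ (ℓ : ℤ) - 1 := fun m hm =>
    (Int.natCast_dvd_natCast.mpr hm).trans hdvd
  refine ⟨ℓ, ⟨hℓ, fun h => hℓM (dvd_mul_of_dvd_right (dvd_mul_of_dvd_left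
      (dvd_mul_of_dvd_right h _) _) _), hdiv _ (dvd_mul_of_dvd_right (dvd_mul_of_dvd_left
      (dvd_mul_right _ _) _) _), hdiv _ (dvd_mul_of_dvd_right (dvd_mul_of_dvd_left
      (dvd_mul_left _ _) _) _)⟩, fun hS => ?_, hgood, hℓp, fun h => hne ?_⟩
  · exact hℓM (dvd_mul_of_dvd_right (dvd_mul_of_dvd_right
      (Finset.dvd_prod_of_mem _ (Finset.mem_filter.mpr ⟨hS, hℓ⟩)) _) _)
  · rw [← ZMod.intCast_zmod_eq_zero_iff_dvd]
    refine (ZMod.castHom (dvd_refl p) k).injective ?_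
    have h1 : (ℓ : k) = 1 := by
      have := hdiv p (dvd_mul_right p _)
      rw [← ZMod.intCast_zmod_eq_zero_iff_dvd, Int.cast_sub, Int.cast_natCast, Int.cast_one,
        sub_eq_zero] at this
      rw [← map_natCast (ZMod.castHom (dvd_refl p) k), this, map_one]
    rw [map_zero, map_intCast, Int.cast_sub, Int.cast_ofNat,
      show (W.apOfModel ℓ : k) = abar W k ℓ from rfl, h, h1]
    norm_num

end Fermat.Agent.Lifting.Curve

end
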