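import Fermat.Agent.Lifting.Curve.Point
import Fermat.Agent.Lifting.Deform.Condition

/-!
# The Tate module satisfies the deformation conditions of the lifting theorem
-/

set_option autoImplicit false

noncomputable section

open WeierstrassCurve IsLocalRing
open scoped WeierstrassCurve.Affine
open Fermat.Agent.Arith

namespace Fermat.Agent.Lifting.Curve

variable {W : WeierstrassCurve ℤ} {p : ℕ} [Fact p.Prime]
  {O : Type} [CommRing O] [IsLocalRing O]
  (hΔ : W.Δ ≠ 0) (ι : ℤ_[p] →+* O) (hp : (p : O) ∈ maximalIdeal O)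

omit [Fact p.Prime] in
/-- The sign relations and unipotence give the signed condition. -/
theorem isSignedAt_of_signRelations {ρ : GaloisRepAdic O} {q : ℕ}
    (hu : ρ.IsUnipotentOnInertiaAt q) (h : SignRelations ρ.ρ W q) :
    IsSignedAt ρ q (frobSign W q) :=
  ⟨hu, fun P hP F hF τ hτ => ⟨((h P hP F hF).2 τ hτ).1, ((h P hP F hF).2 τ hτ).2.1⟩⟩

/-- At a bad prime `q ≠ p` the point satisfies the signed condition. -/
theorem isSignedAt_point (hW : W.IsSemistableModel) {q : ℕ} (hq : q.Prime) (hqp : q ≠ p)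
    (hqΔ : (q : ℤ) ∣ W.Δ) : IsSignedAt (point hΔ ι hp) q (frobSign W q) :=
  isSignedAt_of_signRelations (isUnipotentOnInertiaAt_point hΔ ι hp hW hq hqp)
    (signRelations_point hΔ ι hp hW hq hqp hqΔ)

/-- The point satisfies the condition at `p` matching the reduction of `W`. -/
theorem pKind_holds_point (hW : W.IsSemistableModel) (hp2 : p ≠ 2) [Finite (ResidueField O)]
    (K : PKind) (hgood : K = .flat → W.IsGoodPrimeFor p) (hbad : K ≠ .flat → (p : ℤ) ∣ W.Δ) :
    K.Holds (point hΔ ι hp) p := by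
  cases K with
  | flat => exact isFlatAt_point hΔ ι hp (hgood rfl)
  | ord => exact (isStrictOrdinaryAt_point hΔ ι hp hW hp2 (hbad (by simp))).isOrdinaryAt
  | strict => exact isStrictOrdinaryAt_point hΔ ι hp hW hp2 (hbad (by simp))

/-- The point satisfies `liftCondition`, for sets `N`, `T` covering the bad primes `≠ p` with the
signed primes bad. -/
theorem liftCondition_point (hW : W.IsSemistableModel) (hp2 : p ≠ 2) [Finite (ResidueField O)]
    (K : PKind) (hgood : K = .flat → W.IsGoodPrimeFor p) (hbad : K ≠ .flat → (p : ℤ) ∣ W.Δ)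
    (N T : Finset ℕ)
    (hcover : ∀ q : ℕ, q.Prime → q ≠ p → (q : ℤ) ∣ W.Δ → q ∈ N ∪ T)
    (hT : ∀ q ∈ T, q.Prime → q ≠ p → q % p ≠ 1 → (q : ℤ) ∣ W.Δ) :
    liftCondition O p K N T (frobSign W) (point hΔ ι hp) :=
  ⟨detIsCyclotomic_point hΔ ι hp, pKind_holds_point hΔ ι hp hW hp2 K hgood hbad,
    fun q hq hqS => isUnramifiedAt_point hΔ ι hp hq
      (fun h => hqS (Finset.mem_insert_of_mem
        (hcover q hq (fun e => hqS (e ▸ Finset.mem_insert_self _ _)) h)))
      (fun e => hqS (e ▸ Finset.mem_insert_self _ _)),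
    fun q _ hq hqp => isUnipotentOnInertiaAt_point hΔ ι hp hW hq hqp,
    fun q hqT hq hqp hq1 => isSignedAt_point hΔ ι hp hW hq hqp (hT q hqT hq hqp hq1)⟩

end Fermat.Agent.Lifting.Curve

end
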