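import Fermat.Agent.Lifting.Curve.End
import Fermat.Agent.Results.S35
import Fermat.Agent.Results.S36

/-!
# The end of lifting, without hypotheses on the attached representations
-/

set_option autoImplicit false

noncomputable section

open WeierstrassCurve CongruenceSubgroup ModularFormClass

namespace Fermat.Agent.Lifting.Curve

theorem newformRepInput_holds : ConductorLevel.NewformRepInput :=
  fun hg lam _ S O' _ _ _ _ _ _ hlamO' chig hchig iota hlamS hMS =>
    Results.S35.result hg lam S O' hlamO' chig hchig iota hlamS hMS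

theorem newformCarayolInput_holds : ConductorLevel.NewformCarayolInput :=
  fun hg lam _ S O' _ _ _ _ _ _ hlamO' hlam2 chig hchig iota hlamS hMS hres =>
    Results.S36.result hg lam S O' hlamO' hlam2 chig hchig iota hlamS hMS hres

variable {W : WeierstrassCurve ℤ} {M : ℕ} [NeZero M] {g : CuspForm (Gamma0 M) 2}

/-- A newform of squarefree level with the traces of `W` at almost all primes makes `W` modular at
exactly its conductor level. -/
theorem isModular_of_newform_squarefree (hΔ0 : W.Δ ≠ 0) (hss : W.IsSemistableModel)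
    (hg : g.IsNewform) (hM : Squarefree M) (T : Finset ℕ)
    (hgW : ∀ ℓ : ℕ, ℓ.Prime → ℓ ∉ T → qCoeff g ℓ = (W.apOfModel ℓ : ℂ)) :
    Mlc1IsModularModelOfExactConductorLevel W :=
  isModularModelOfExactConductorLevel_of_newform newformRepInput_holds hΔ0 hss hg hM T hgW

/-- The same, for a level not divisible by `p²` or by a cube prime to `p`, when `W[p]` is
irreducible. -/
theorem isModular_of_newform (hΔ0 : W.Δ ≠ 0) (hss : W.IsSemistableModel) (hg : g.IsNewform)
    {p : ℕ} [Fact p.Prime] (hp2 : p ≠ 2) (hirr : W.ModRepIsIrreducible p) (hpM : ¬ p ^ 2 ∣ M)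
    (hM3 : ∀ q : ℕ, q.Prime → q ≠ p → ¬ q ^ 3 ∣ M) (T : Finset ℕ)
    (hgW : ∀ ℓ : ℕ, ℓ.Prime → ℓ ∉ T → qCoeff g ℓ = (W.apOfModel ℓ : ℂ)) :
    Mlc1IsModularModelOfExactConductorLevel W := by
  classical
  refine isModular_of_newform_squarefree hΔ0 hss hg
    (Nat.squarefree_iff_prime_squarefree.2 fun q hq h => ?_) T hgW
  rw [← sq] at h
  by_cases hqp : q = p
  · exact hpM (hqp ▸ h)
  refine ConductorLevel.not_sq_dvd_level newformCarayolInput_holds hss hΔ0 hg hp2 hirr
    (S := insert p (T ∪ (M.primeFactors ∪ W.Δ.natAbs.primeFactors))) (Finset.mem_insert_self _ _)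
    (fun r hr hd => ?_) (fun r hr hrS hd => hrS ?_) (fun r hr hrS => hgW r hr fun hT => hrS ?_)
    hq hqp (hM3 q hq hqp) h
  · simp [Nat.mem_primeFactors, hr, hd, NeZero.ne M]
  · simp [Nat.mem_primeFactors, hr, Int.natCast_dvd.mp hd, hΔ0]
  · simp [hT]

end Fermat.Agent.Lifting.Curve

end
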