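import Fermat.Agent.RT.Glue.FlatDescent

/-!
# Flatness passes to any base change with finite residue field

The finite levels of a base change are equivariant quotients of powers of finite levels of the
original representation.
-/

set_option autoImplicit false

noncomputable section

open IsLocalRing Module
open scoped TensorProduct

namespace Fermat.Agent.Lifting.Curve

open FiniteFlat (GalOrder)
open Arith (GQ)

theorem nonempty_galOrder_fun {l : ℕ} {M : Type} [AddCommGroup M] [DistribMulAction GQ M]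
    [Finite M] (O : GalOrder l M) (n : ℕ) : Nonempty (GalOrder l (Fin n → M)) := by
  induction n with
  | zero =>
    exact ⟨O.quotient (0 : M →+ (Fin 0 → M)) (fun x => ⟨0, Subsingleton.elim _ _⟩)
      fun σ m => Subsingleton.elim _ _⟩
  | succ n ih =>
    obtain ⟨O'⟩ := ih
    refine ⟨(O.prod O').quotient
      (AddMonoidHom.mk' (fun x : M × (Fin n → M) => (Fin.cons x.1 x.2 : Fin (n + 1) → M))
        fun x y => ?_) (fun x => ⟨(x 0, Fin.tail x), Fin.cons_self_tail x⟩) fun σ x => ?_⟩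
    · funext i
      refine Fin.cases ?_ (fun j => ?_) i <;> simp
    · funext i
      refine Fin.cases ?_ (fun j => ?_) i <;> simp

theorem isFlatAt_baseChangeAlong {A B : Type} [CommRing A] [IsLocalRing A] [CommRing B]
    [IsLocalRing B] [Finite (ResidueField B)] (φ : A →+* B) (hφ : IsLocalHom φ)
    {ρ : GaloisRepAdic A} {p : ℕ} (h : ρ.IsFlatAt p) : (ρ.baseChangeAlong φ hφ).IsFlatAt p := by
  classical
  letI := φ.toAlgebra
  refine EC.Rep.isFlatAt_of_galOrder _ p inferInstance fun I hI => ?_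
  have hfinA : Finite (A ⧸ I.comap φ) := Finite.of_injective _
    (Ideal.quotientMap_injective (I := I) (f := φ))
  obtain ⟨H, instH, instHopf, hHfin, -, -, e, he, heσ⟩ := h.2 (I.comap φ) hfinA
  letI : DistribMulAction GQ (ρ.V ⧸ (I.comap φ • (⊤ : Submodule A ρ.V))) := EC.Rep.levelDistribMulAction ρ (I.comap φ)
  haveI : Finite (ρ.V ⧸ (I.comap φ • (⊤ : Submodule A ρ.V))) := by
    let b := Module.finBasisOfFinrankEq A ρ.V ρ.finrank_eq
    refine Finite.of_surjective (α := Fin 2 → A ⧸ I.comap φ)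
      (fun c => Submodule.Quotient.mk (∑ i, (c i).out • b i)) fun y => ?_
    obtain ⟨v, rfl⟩ := Submodule.Quotient.mk_surjective _ y
    refine ⟨fun i => Ideal.Quotient.mk _ (b.repr v i), ?_⟩
    rw [Submodule.Quotient.eq]
    conv => enter [2, 2]; rw [← b.sum_repr v]
    rw [← Finset.sum_sub_distrib]
    refine Submodule.sum_mem _ fun i _ => ?_
    rw [← sub_smul]
    refine Submodule.smul_mem_smul ?_ Submodule.mem_top
    rw [← Ideal.Quotient.eq, Ideal.Quotient.mk_out]
  obtain ⟨O⟩ := RT.Glue.nonempty_galOrder_of_hopf (M := (ρ.V ⧸ (I.comap φ • (⊤ : Submodule A ρ.V)))) e he fun σ f g hfg => heσ σ f g hfg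
  obtain ⟨ON⟩ := nonempty_galOrder_fun O (Nat.card (B ⧸ I))
  let ν := Finite.equivFin (B ⧸ I)
  have hlift : ∀ c : B ⧸ I, ∃ b : B, Ideal.Quotient.mk I b = c := Ideal.Quotient.mk_surjective
  choose lift hlift using hlift
  set N : Submodule B (B ⊗[A] ρ.V) := I • (⊤ : Submodule B (B ⊗[A] ρ.V))
  have hkill : ∀ (c : B), ∀ v ∈ I.comap φ • (⊤ : Submodule A ρ.V),
      Submodule.Quotient.mk (p := N) (c ⊗ₜ[A] v) = 0 := by
    intro c v hv
    rw [Submodule.Quotient.mk_eq_zero]
    refine Submodule.smul_induction_on (p := fun v => c ⊗ₜ[A] v ∈ N) hv (fun a ha w _ => ?_)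
      (fun x y hx hy => by rw [TensorProduct.tmul_add]; exact add_mem hx hy)
    rw [TensorProduct.tmul_smul, ← algebraMap_smul B a (c ⊗ₜ[A] w)]
    exact Submodule.smul_mem_smul (Ideal.mem_comap.mp ha) Submodule.mem_top
  let ψ : Fin (Nat.card (B ⧸ I)) → (ρ.V ⧸ (I.comap φ • (⊤ : Submodule A ρ.V))) →+ (B ⊗[A] ρ.V) ⧸ N := fun i =>
    QuotientAddGroup.lift (I.comap φ • (⊤ : Submodule A ρ.V)).toAddSubgroup
      (N.mkQ.toAddMonoidHom.comp (TensorProduct.mk A B ρ.V (lift (ν.symm i))).toAddMonoidHom)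
      fun v hv => hkill _ v hv
  have hψ : ∀ i v, ψ i (Submodule.Quotient.mk v) =
      Submodule.Quotient.mk (p := N) (lift (ν.symm i) ⊗ₜ[A] v) := fun i v => rfl
  let π : (Fin (Nat.card (B ⧸ I)) → (ρ.V ⧸ (I.comap φ • (⊤ : Submodule A ρ.V)))) →+ (B ⊗[A] ρ.V) ⧸ N :=
    ∑ i, (ψ i).comp (Pi.evalAddMonoidHom (fun _ => (ρ.V ⧸ (I.comap φ • (⊤ : Submodule A ρ.V)))) i)
  have hπ : ∀ m, π m = ∑ i, ψ i (m i) := fun m => by
    show (∑ i, (ψ i).comp (Pi.evalAddMonoidHom _ i)) m = _
    rw [AddMonoidHom.finset_sum_apply]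
    rfl
  refine ⟨Fin (Nat.card (B ⧸ I)) → (ρ.V ⧸ (I.comap φ • (⊤ : Submodule A ρ.V))), inferInstance, inferInstance, inferInstance, ON,
    π, ?_, fun σ m => ?_⟩
  · show Function.Surjective π
    intro y
    obtain ⟨w, rfl⟩ := Submodule.Quotient.mk_surjective _ y
    induction w using TensorProduct.induction_on with
    | zero => exact ⟨0, by rw [map_zero]; rfl⟩
    | tmul c v =>
      refine ⟨Pi.single (ν (Ideal.Quotient.mk I c)) (Submodule.Quotient.mk v), ?_⟩
      rw [hπ, Finset.sum_eq_single (ν (Ideal.Quotient.mk I c))]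
      · rw [Pi.single_eq_same, hψ,
          ν.symm_apply_apply]
        refine (Submodule.Quotient.eq _).mpr ?_
        rw [← TensorProduct.sub_tmul]
        have hmem : lift (Ideal.Quotient.mk I c) - c ∈ I := Ideal.Quotient.eq.mp (hlift _)
        have e : (lift (Ideal.Quotient.mk I c) - c) ⊗ₜ[A] v =
            (lift (Ideal.Quotient.mk I c) - c) • ((1 : B) ⊗ₜ[A] v) := by
          rw [TensorProduct.smul_tmul', smul_eq_mul, mul_one]
        rw [e]
        exact Submodule.smul_mem_smul hmem Submodule.mem_top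
      · intro j _ hj
        rw [Pi.single_eq_of_ne hj, map_zero]
      · exact fun h => absurd (Finset.mem_univ _) h
    | add x y hx hy =>
      obtain ⟨a, ha⟩ := hx
      obtain ⟨b, hb⟩ := hy
      exact ⟨a + b, by rw [map_add, ha, hb]; rfl⟩
  · show π (σ • m) = Submodule.mapQ N N ((ρ.ρ σ).baseChange B) _ (π m)
    rw [hπ, hπ, map_sum]
    refine Finset.sum_congr rfl fun i _ => ?_
    obtain ⟨v, hv⟩ := Submodule.Quotient.mk_surjective _ (m i)
    rw [Pi.smul_apply, ← hv]
    show ψ i (Submodule.Quotient.mk (ρ.ρ σ v)) = _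
    rw [hψ, hψ]
    rfl

end Fermat.Agent.Lifting.Curve

end
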