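import Fermat.Agent.Lifting.Curve.Residual
import Fermat.Agent.Lifting.Curve.FlatBaseChange
import Fermat.Agent.EC.Rep.Tate.DetCyclotomic
import Fermat.Agent.GaloisReps.PadicHom
import Fermat.Agent.Deform.Residual

/-!
# The Tate module of a semistable curve as a point of the deformation problems

`point hΔ ι hp` is the `p`-adic Tate module with coefficients extended along `ι : ℤ_[p] → O`
(`GaloisReps.exists_padicHom` provides `ι`).
-/

set_option autoImplicit false

noncomputable section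

open WeierstrassCurve Polynomial IsLocalRing
open scoped WeierstrassCurve.Affine TensorProduct
open Fermat.Agent.Arith

namespace Fermat.Agent.Lifting.Curve

local notation "Q̄" => AlgebraicClosure ℚ
local notation "GQ" => AlgebraicClosure ℚ ≃ₐ[ℚ] AlgebraicClosure ℚ

variable {W : WeierstrassCurve ℤ} {p : ℕ} [Fact p.Prime]

/-! ### The Tate module itself -/

section Tate

variable (hΔ : W.Δ ≠ 0)

theorem signRelations_tateRep (hW : W.IsSemistableModel) {q : ℕ} (hq : q.Prime) (hqp : q ≠ p)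
    (hqΔ : (q : ℤ) ∣ W.Δ) : SignRelations (EC.Rep.tateRep W p hΔ).ρ W q := by
  intro A hA σ hσ
  have key := fun (n : ℕ) (v : (EC.Rep.tateRep W p hΔ).V) =>
    (isFrobSign_frobSign hΔ hW hq hqΔ).2 A hA σ hσ (p ^ n)
      (fun h => hqp ((Nat.prime_dvd_prime_iff_eq hq Fact.out).mp (hq.dvd_of_dvd_pow h)))
      (EC.Rep.tateRed hΔ n v)
      (by rw [← natCast_zsmul]; push_cast; exact EC.Rep.pow_smul_tateRed hΔ n v)
  refine ⟨LinearMap.ext fun v => ?_, fun τ hτ => ⟨LinearMap.ext fun v => ?_,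
    LinearMap.ext fun v => ?_, LinearMap.ext fun v => ?_⟩⟩ <;>
    refine EC.Rep.tateRed_eq_zero_of_forall hΔ fun n => ?_ <;>
    simp only [Module.End.mul_apply, LinearMap.sub_apply, LinearMap.smul_apply,
      Module.End.one_apply, Int.cast_smul_eq_zsmul, map_sub, map_zsmul, EC.Rep.red_tateRep,
      smul_sub_point, smul_zsmul_point, zsmul_sub]
  · have h := (key n v).1
    rw [smul_sub_point, smul_zsmul_point, zsmul_sub] at h
    generalize σ • (σ • (EC.Rep.tateRed hΔ n v)) = R0 at h ⊢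
    generalize σ • (EC.Rep.tateRed hΔ n v) = R1 at h ⊢
    linear_combination (norm := module) h
  · have h := ((key n v).2 τ hτ).1
    rw [smul_sub_point, zsmul_sub] at h
    generalize σ • (τ • (EC.Rep.tateRed hΔ n v)) = R0 at h ⊢
    generalize τ • (EC.Rep.tateRed hΔ n v) = R1 at h ⊢
    generalize σ • (EC.Rep.tateRed hΔ n v) = R2 at h ⊢
    linear_combination (norm := module) h
  · have h := ((key n v).2 τ hτ).2.1
    rw [smul_sub_point, smul_zsmul_point] at h
    generalize τ • (σ • (EC.Rep.tateRed hΔ n v)) = R0 at h ⊢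
    generalize σ • (EC.Rep.tateRed hΔ n v) = R1 at h ⊢
    generalize τ • (EC.Rep.tateRed hΔ n v) = R2 at h ⊢
    linear_combination (norm := module) h
  · have h := ((key n v).2 τ hτ).2.2
    rw [smul_sub_point] at h
    generalize τ • (τ • (EC.Rep.tateRed hΔ n v)) = R0 at h ⊢
    generalize τ • (EC.Rep.tateRed hΔ n v) = R1 at h ⊢
    linear_combination (norm := module) h

theorem det_tateRep_frobenius {q : ℕ} (hq : q.Prime) (hqp : q ≠ p) {A : ValuationSubring Q̄}
    (hA : A.LiesOverPrime q) {σ : GQ} (hσ : A.IsFrobeniusAt σ q) :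
    LinearMap.det ((EC.Rep.tateRep W p hΔ).ρ σ) = (q : ℤ_[p]) := by
  refine PadicInt.ext_of_toZModPow.mp fun n => ?_
  rw [← sub_eq_zero, ← map_sub, ← RingHom.mem_ker, PadicInt.ker_toZModPow, ← Nat.cast_pow]
  exact (EC.Rep.detIsCyclotomic_tateRep hΔ).2 n σ q fun μ hμ => Arith.frobenius_root hA hq hσ hμ
    fun h => hqp ((Nat.prime_dvd_prime_iff_eq hq Fact.out).mp (hq.dvd_of_dvd_pow h))

theorem charpoly_tateRep_frobenius_bad (hW : W.IsSemistableModel) {q : ℕ} (hq : q.Prime)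
    (hqp : q ≠ p) (hqΔ : (q : ℤ) ∣ W.Δ) {A : ValuationSubring Q̄} (hA : A.LiesOverPrime q)
    {σ : GQ} (hσ : A.IsFrobeniusAt σ q) :
    LinearMap.charpoly ((EC.Rep.tateRep W p hΔ).ρ σ) =
      (X - C ((frobSign W q * q : ℤ) : ℤ_[p])) * (X - C ((frobSign W q : ℤ) : ℤ_[p])) := by
  have hs0 : frobSign W q ≠ 0 := fun h => by simpa [h] using frobSign_mul_self W q
  refine charpoly_of_quadratic (EC.Rep.tateRep W p hΔ).finrank_eq _
    (Int.cast_ne_zero.mpr (mul_ne_zero hs0 (Int.natCast_ne_zero.mpr hq.ne_zero)))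
    (Int.cast_ne_zero.mpr hs0) ?_ (signRelations_tateRep hΔ hW hq hqp hqΔ A hA σ hσ).1
  rw [det_tateRep_frobenius hΔ hq hqp hA hσ, ← Int.cast_mul, mul_right_comm, frobSign_mul_self,
    one_mul, Int.cast_natCast]

/-- In suitable bases `W[p]` is the reduction of the Tate module. -/
theorem exists_basis_residualRep :
    ∃ (b : Module.Basis (Fin 2) ℤ_[p] (EC.Rep.tateRep W p hΔ).V)
      (e : Module.Basis (Fin 2) (ZMod p) (EC.Rep.residualRep W p hΔ).V),
      Deform.matRes (EC.Rep.residualRep W p hΔ) e =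
        Deform.mapM PadicInt.toZMod (Deform.matOf (EC.Rep.tateRep W p hΔ) b) := by
  classical
  let b : Module.Basis (Fin 2) ℤ_[p] (EC.Rep.tateRep W p hΔ).V := Module.Basis.finTwoProd ℤ_[p]
  let r : (EC.Rep.tateRep W p hΔ).V → (EC.Rep.residualRep W p hΔ).V := fun v =>
    ⟨EC.Rep.tateRed hΔ 1 v, by
      rw [Submodule.mem_torsionBy_iff]
      simpa using EC.Rep.pow_smul_tateRed hΔ 1 v⟩
  have hr : ∀ v, (Subtype.val (r v) : EC.Rep.PtQ W) = EC.Rep.tateRed hΔ 1 v := fun _ => rfl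
  have hadd : ∀ v w, r (v + w) = r v + r w := fun v w => Subtype.ext (map_add _ v w)
  have hsmul : ∀ (c : ℤ_[p]) v, r (c • v) = PadicInt.toZMod c • r v := fun c v => by
    obtain ⟨a, ha⟩ := EC.Rep.TateBasis.exists_int_sub_mem 1 c
    have hc : PadicInt.toZMod c = (a : ZMod p) := by
      rw [← map_intCast (PadicInt.toZMod (p := p)), ← sub_eq_zero, ← map_sub, ← RingHom.mem_ker,
        PadicInt.ker_toZMod, PadicInt.maximalIdeal_eq_span_p]
      simpa using ha
    rw [hc, Int.cast_smul_eq_zsmul]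
    exact Subtype.ext (EC.Rep.tateRed_smul hΔ ha v)
  have hli : LinearIndependent (ZMod p) fun i => r (b i) := by
    rw [Fintype.linearIndependent_iff]
    intro g hg i
    choose a ha using fun i => ZMod.intCast_surjective (g i)
    have h0 : EC.Rep.tateRed hΔ 1 ((a 0 : ℤ_[p]) • b 0 + (a 1 : ℤ_[p]) • b 1) = 0 := by
      rw [← hr, hadd, hsmul, hsmul, map_intCast, map_intCast, ha, ha, ← Fin.sum_univ_two
        (f := fun i => g i • r (b i)), hg]
      rfl
    obtain ⟨h1, h2⟩ := (EC.Rep.tateRed_eq_zero_iff hΔ 1 _).mp h0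
    have h1' : b.repr ((a 0 : ℤ_[p]) • b 0 + (a 1 : ℤ_[p]) • b 1) 0 ∈
      Ideal.span {(p : ℤ_[p]) ^ 1} := h1
    have h2' : b.repr ((a 0 : ℤ_[p]) • b 0 + (a 1 : ℤ_[p]) • b 1) 1 ∈
      Ideal.span {(p : ℤ_[p]) ^ 1} := h2
    rw [pow_one, ← PadicInt.maximalIdeal_eq_span_p, ← PadicInt.ker_toZMod, RingHom.mem_ker]
      at h1' h2'
    simp [ha] at h1' h2'
    fin_cases i
    · exact h1'
    · exact h2'
  let e := basisOfLinearIndependentOfCardEqFinrank hli
    (by rw [Fintype.card_fin, (EC.Rep.residualRep W p hΔ).finrank_eq])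
  have he : ∀ i, e i = r (b i) := fun i => by simp [e]
  refine ⟨b, e, MonoidHom.ext fun σ => Matrix.ext fun i j => ?_⟩
  rw [Deform.matRes_apply, Deform.mapM_apply, Deform.matOf_apply]
  have h : (EC.Rep.residualRep W p hΔ).ρ σ (e j) = r ((EC.Rep.tateRep W p hΔ).ρ σ (b j)) := by
    rw [he]
    exact Subtype.ext ((EC.Rep.red_tateRep hΔ σ 1 (b j)).symm)
  rw [h]
  conv_lhs => rw [← b.sum_repr ((EC.Rep.tateRep W p hΔ).ρ σ (b j)), Fin.sum_univ_two, hadd,
    hsmul, hsmul, ← he, ← he]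
  fin_cases i <;> simp

end Tate

/-! ### Over `O` -/

variable {O : Type} [CommRing O] [IsLocalRing O]

theorem isLocalHom_padic (ι : ℤ_[p] →+* O) (hp : (p : O) ∈ maximalIdeal O) : IsLocalHom ι := by
  refine ⟨fun x hx => by_contra fun hnu => ?_⟩
  have hm : x ∈ maximalIdeal ℤ_[p] := hnu
  rw [PadicInt.maximalIdeal_eq_span_p] at hm
  obtain ⟨c, rfl⟩ := Ideal.mem_span_singleton'.mp hm
  rw [map_mul, map_natCast] at hx
  exact hp (isUnit_of_mul_isUnit_right hx)

variable (hΔ : W.Δ ≠ 0) (ι : ℤ_[p] →+* O) (hp : (p : O) ∈ maximalIdeal O)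

/-- The Tate module of `W` over `O`. -/
def point : GaloisRepAdic O :=
  (EC.Rep.tateRep W p hΔ).baseChangeAlong ι (isLocalHom_padic ι hp)

theorem detIsCyclotomic_point : (point hΔ ι hp).DetIsCyclotomic p :=
  CFT.Tangent.DetIsCyclotomic.baseChange ι _ (EC.Rep.detIsCyclotomic_tateRep hΔ)

theorem isUnramifiedAt_point {q : ℕ} (hq : q.Prime) (hgood : W.IsGoodPrimeFor q) (hqp : q ≠ p) :
    (point hΔ ι hp).IsUnramifiedAt q :=
  CFT.Tangent.IsUnramifiedAt.baseChange ι _ (EC.Rep.isUnramifiedAt_tateRep hΔ hq hgood hqp)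

theorem isUnipotentOnInertiaAt_point (hW : W.IsSemistableModel) {q : ℕ} (hq : q.Prime)
    (hqp : q ≠ p) : (point hΔ ι hp).IsUnipotentOnInertiaAt q :=
  CFT.Tangent.IsUnipotentOnInertiaAt.baseChange ι _
    (EC.Rep.isUnipotentOnInertiaAt_tateRep hΔ hq hqp (EC.Rep.semistable_not_dvd hW q hq))

theorem isStrictOrdinaryAt_point (hW : W.IsSemistableModel) (hp2 : p ≠ 2)
    (hdvd : (p : ℤ) ∣ W.Δ) : (point hΔ ι hp).IsStrictOrdinaryAt p :=
  CFT.Tangent.IsStrictOrdinaryAt.baseChange ι _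
    (EC.Rep.isStrictOrdinaryAt_tateRep hΔ hp2 hdvd (hW p Fact.out hdvd))

theorem isFlatAt_point [Finite (ResidueField O)] (hgood : W.IsGoodPrimeFor p) :
    (point hΔ ι hp).IsFlatAt p :=
  isFlatAt_baseChangeAlong ι _ (EC.Rep.isFlatAt_tateRep hΔ hgood)

theorem charpoly_point_frobenius {ℓ : ℕ} (hℓ : ℓ.Prime) (hgood : W.IsGoodPrimeFor ℓ)
    (hne : ℓ ≠ p) {A : ValuationSubring Q̄} (hA : A.LiesOverPrime ℓ) {σ : GQ}
    (hσ : A.IsFrobeniusAt σ ℓ) :
    LinearMap.charpoly ((point hΔ ι hp).ρ σ) = X ^ 2 - C (W.apOfModel ℓ : O) * X + C (ℓ : O) := by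
  rw [point, CFT.Tangent.charpoly_baseChangeAlong,
    EC.Rep.charpoly_tateRep_frobenius hΔ hℓ hgood hne hA hσ]
  simp

theorem signRelations_point (hW : W.IsSemistableModel) {q : ℕ} (hq : q.Prime) (hqp : q ≠ p)
    (hqΔ : (q : ℤ) ∣ W.Δ) : SignRelations (point hΔ ι hp).ρ W q := by
  letI := ι.toAlgebra
  exact (signRelations_tateRep hΔ hW hq hqp hqΔ).map_baseChange O fun _ => rfl

theorem charpoly_point_frobenius_bad (hW : W.IsSemistableModel) {q : ℕ} (hq : q.Prime)
    (hqp : q ≠ p) (hqΔ : (q : ℤ) ∣ W.Δ) {A : ValuationSubring Q̄} (hA : A.LiesOverPrime q)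
    {σ : GQ} (hσ : A.IsFrobeniusAt σ q) :
    LinearMap.charpoly ((point hΔ ι hp).ρ σ) =
      (X - C ((frobSign W q * q : ℤ) : O)) * (X - C ((frobSign W q : ℤ) : O)) := by
  rw [point, CFT.Tangent.charpoly_baseChangeAlong,
    charpoly_tateRep_frobenius_bad hΔ hW hq hqp hqΔ hA hσ]
  simp

/-- The point lifts the residual representation. -/
theorem residual_point_isEquiv [CharP (ResidueField O) p] :
    (point hΔ ι hp).residual.IsEquiv (residual hΔ (ResidueField O)) := by
  obtain ⟨b, e, he⟩ := exists_basis_residualRep (p := p) hΔ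
  letI := ι.toAlgebra
  letI : Algebra (ZMod p) (ResidueField O) :=
    (ZMod.castHom (dvd_refl p) (ResidueField O)).toAlgebra
  refine Deform.isEquiv_of_matRes_eq ((b.baseChange O).baseChange (ResidueField O))
    (e.baseChange (ResidueField O)) ?_
  refine (Deform.matRes_residual (point hΔ ι hp) (b.baseChange O)).trans ?_
  refine Eq.trans ?_ (Deform.matRes_baseChangeAlong (ZMod.castHom (dvd_refl p) (ResidueField O))
    (EC.Rep.residualRep W p hΔ) e).symm
  rw [he, show Deform.matOf (point hΔ ι hp) (b.baseChange O) =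
      Deform.mapM ι (Deform.matOf (EC.Rep.tateRep W p hΔ) b) from
    Deform.matOf_baseChangeAlong ι (isLocalHom_padic ι hp) (EC.Rep.tateRep W p hΔ) b,
    Deform.mapM_mapM, Deform.mapM_mapM]
  congr 1
  refine RingHom.ext fun c => ?_
  obtain ⟨a, ha⟩ := EC.Rep.TateBasis.exists_int_sub_mem 1 c
  obtain ⟨d, hd⟩ := Ideal.mem_span_singleton'.mp ha
  obtain rfl : c = a + d * (p : ℤ_[p]) ^ 1 := by rw [hd]; ring
  simp [RingHom.comp_apply, map_add, map_mul, CharP.cast_eq_zero]

omit [IsLocalRing O] in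
/-- At a good `p` the residual representation is flat. -/
theorem isFlatAt_residual (k : Type) [Field k] [CharP k p] [Finite k]
    (hgood : W.IsGoodPrimeFor p) :
    (GaloisRepAdic.ofResidualGaloisRep (residual hΔ k)).IsFlatAt p := by
  have : Finite (ResidueField k) := Finite.of_surjective _ (residue_surjective (R := k))
  exact isFlatAt_baseChangeAlong (ZMod.castHom (dvd_refl p) k)
    ⟨fun x hx => (map_ne_zero_iff _ (RingHom.injective _)).mp hx.ne_zero |> Ne.isUnit⟩
    (EC.Rep.isFlatAt_residualRep hΔ hgood)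

end Fermat.Agent.Lifting.Curve

end
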