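import Fermat.Agent.ConductorLevel.Assembly
import Fermat.Agent.EC.Multiplicative.Frobenius
import Fermat.Agent.RT.Lift.Bound
import Fermat.Prelude.Def_WeierstrassCurve_Mlc1RowStatement

/-!
# From a newform with the traces of a semistable curve to modularity at the conductor level
-/

set_option autoImplicit false

noncomputable section

open WeierstrassCurve Polynomial CongruenceSubgroup ModularFormClass
open Fermat.Agent.Arith Fermat.Agent.ConductorLevel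

namespace Fermat.Agent.Lifting.Curve

local notation "Q̄" => AlgebraicClosure ℚ

variable {W : WeierstrassCurve ℤ}

/-- At a bad prime `q ≠ λ` the trace of a Frobenius element of a representation matching `W` is
`± (q + 1)`. -/
theorem trace_frobenius_of_matches_bad {O : Type} [CommRing O] [IsDomain O]
    [IsDiscreteValuationRing O] [CharZero O] {lam : ℕ} {ρ : GaloisRepAdic O} {S : Finset ℕ}
    (hΔ0 : W.Δ ≠ 0) (hρ : MatchesCurve ρ W S)
    (hS : ∀ ℓ : ℕ, ℓ.Prime → ℓ ∉ S → W.IsGoodPrimeFor ℓ)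
    (hlam : lam.Prime) (hlamS : lam ∈ S) (hlamO : (lam : O) ∈ IsLocalRing.maximalIdeal O)
    {q : ℕ} (hq : q.Prime) (hqlam : q ≠ lam) (hqΔ : (q : ℤ) ∣ W.Δ) (hc₄ : ¬ (q : ℤ) ∣ W.c₄)
    {A : ValuationSubring Q̄} (hA : A.LiesOverPrime q) {σ : Q̄ ≃ₐ[ℚ] Q̄}
    (hσ : A.IsFrobeniusAt σ q) :
    ∃ ε : ℤ, (ε = 1 ∨ ε = -1) ∧ ρ.trace σ = ((ε * (q + 1) : ℤ) : O) := by
  obtain ⟨ε, hε, hquad⟩ := EC.Multiplicative.exists_sign_frobenius_quadratic hA hq hΔ0 hqΔ hc₄ hσ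
  refine ⟨ε, hε, sub_eq_zero.1 (eq_zero_of_forall_mem_span hlamO fun n => ?_)⟩
  obtain ⟨N, hN⟩ := exists_pow_maximalIdeal_le (O := O) hlam n
  obtain ⟨T, D, hT, -, hroot, hrel⟩ := exists_relation hΔ0 hρ hS hlam hlamS hN σ
  haveI : NeZero (lam ^ n) := ⟨pow_ne_zero _ hlam.ne_zero⟩
  have hqn : ¬ q ∣ lam ^ n := fun hd =>
    hqlam ((Nat.prime_dvd_prime_iff_eq hq hlam).1 (hq.dvd_of_dvd_pow hd))
  have hD1 : ((lam ^ n : ℕ) : ℤ) ∣ (D : ℤ) - q :=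
    dvd_sub_of_roots (m := lam ^ n) fun μ hμ => by
      rw [← hroot μ hμ]; exact Arith.frobenius_root hA hq hσ hμ hqn
  obtain ⟨P, hP⟩ := exists_point_addOrderOf (W := W) hΔ0 (n := lam ^ n)
    (pow_ne_zero _ hlam.ne_zero)
  have hP0 : lam ^ n • P = 0 := hP ▸ addOrderOf_nsmul_eq_zero P
  have h1 := hrel P hP0
  have h2 := hquad (lam ^ n) hqn P hP0
  have hε2 : ε * ε = 1 := by rcases hε with rfl | rfl <;> norm_num
  rw [smul_sub, show σ • (ε • P) = ε • (σ • P) from Affine.Point.algEquiv_smul_zsmul σ ε P,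
    zsmul_sub, ← mul_zsmul,
    show ε * (q : ℤ) * ε = q by linear_combination (q : ℤ) * hε2] at h2
  have h3 : (ε * ((q : ℤ) + 1) - T) • (σ • P) + ((D : ℤ) - q) • P = 0 := by
    rw [sub_smul, sub_smul, mul_add, mul_one, add_smul]
    linear_combination (norm := abel) h1 - h2
  have h4 : ((D : ℤ) - q) • P = 0 :=
    (addOrderOf_dvd_iff_zsmul_eq_zero).1 (by rw [hP]; exact hD1)
  rw [h4, add_zero] at h3
  have hord : addOrderOf (σ • P) = lam ^ n := by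
    rw [← hP]
    exact addOrderOf_injective (DistribSMul.toAddMonoidHom (Pts W) σ) (MulAction.injective σ) P
  have hTa : ((lam ^ n : ℕ) : ℤ) ∣ ε * ((q : ℤ) + 1) - T := by
    have := addOrderOf_dvd_iff_zsmul_eq_zero.2 h3
    rwa [hord] at this
  have := Ideal.sub_mem _ hT (mem_span_of_dvd (O := O) hTa)
  push_cast at this ⊢
  convert this using 1; ring

variable {M : ℕ} [NeZero M] {g : CuspForm (Gamma0 M) 2}

/-- A bad prime of the curve divides the level. -/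
theorem dvd_level_of_bad (h35 : NewformRepInput) (hΔ0 : W.Δ ≠ 0) (hss : W.IsSemistableModel)
    (hg : g.IsNewform) {S : Finset ℕ} (hMS : ∀ q : ℕ, q.Prime → q ∣ M → q ∈ S)
    (hS : ∀ ℓ : ℕ, ℓ.Prime → ℓ ∉ S → W.IsGoodPrimeFor ℓ)
    (hgW : ∀ ℓ : ℕ, ℓ.Prime → ℓ ∉ S → qCoeff g ℓ = (W.apOfModel ℓ : ℂ))
    {q : ℕ} (hq : q.Prime) (hqΔ : (q : ℤ) ∣ W.Δ) : q ∣ M := by
  classical
  by_contra hqM
  obtain ⟨lam, hlamf, hlamq, φ, hφ⟩ :=
    exists_padic_hom (isIntegral_qCoeff hg.1 hq) (B := q) hq.ne_zero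
  have := hlamf
  have hlam : lam.Prime := Fact.out
  have hne : lam ≠ q := fun h => hlamq (h ▸ dvd_rfl)
  set S₁ := (insert lam S).erase q with hS₁
  have hqS₁ : q ∉ S₁ := Finset.notMem_erase q _
  have hlamS₁ : lam ∈ S₁ := Finset.mem_erase.2 ⟨hne, Finset.mem_insert_self _ _⟩
  have hnot : ∀ ℓ, ℓ ∉ S₁ → ℓ ≠ q → ℓ ∉ S := fun ℓ h hℓq hℓS =>
    h (Finset.mem_erase.2 ⟨hℓq, Finset.mem_insert_of_mem hℓS⟩)
  have hMS₁ : ∀ r : ℕ, r.Prime → r ∣ M → r ∈ S₁ := fun r hr hrM =>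
    Finset.mem_erase.2 ⟨fun h => hqM (h ▸ hrM), Finset.mem_insert_of_mem (hMS r hr hrM)⟩
  have hR : (eigenChar hg.1 (↑S₁ : Set ℕ)).range ≤
      (Algebra.adjoin ℤ ({qCoeff g q} : Set ℂ)).toSubring :=
    eigenChar_range_le hg.1 _ fun ℓ hℓ hℓS => by
      rcases eq_or_ne ℓ q with rfl | hℓq
      · exact Algebra.self_mem_adjoin_singleton ℤ _
      · rw [hgW ℓ hℓ (hnot ℓ (by simpa using hℓS) hℓq), ← eq_intCast (algebraMap ℤ ℂ)]
        exact Subalgebra.algebraMap_mem _ _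
  obtain ⟨O, _, _, _, _, _, _, _, _, _, hinj, ρ, hρ, -⟩ := h35 hg lam S₁ ℤ_[lam]
    (natCast_mem_maximalIdeal_padicInt lam) (eigenChar hg.1 (↑S₁ : Set ℕ))
    (fun ℓ hℓ hℓM hℓS => eigenChar_T hg.1 hℓ hℓM hℓS)
    ((φ : (Algebra.adjoin ℤ ({qCoeff g q} : Set ℂ)).toSubring →+* ℤ_[lam]).comp
      (Subring.inclusion hR)) hlamS₁ hMS₁
  have hS' : ∀ ℓ : ℕ, ℓ.Prime → ℓ ∉ insert q S₁ → W.IsGoodPrimeFor ℓ := fun ℓ hℓ h =>
    hS ℓ hℓ (hnot ℓ (fun hh => h (Finset.mem_insert_of_mem hh))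
      (fun hh => h (hh ▸ Finset.mem_insert_self _ _)))
  have hρW : MatchesCurve ρ W (insert q S₁) := fun ℓ hℓ hℓS A hA σ hσ => by
    have hℓ₁ : ℓ ∉ S₁ := fun hh => hℓS (Finset.mem_insert_of_mem hh)
    have hℓq : ℓ ≠ q := fun hh => hℓS (hh ▸ Finset.mem_insert_self _ _)
    have hℓM : ¬ ℓ ∣ M := fun hd => hℓ₁ (hMS₁ ℓ hℓ hd)
    rw [hρ ℓ hℓ hℓM (by simpa using hℓ₁) A hA σ hσ]
    congr 4
    rw [intCast_range_map (eigenChar hg.1 (↑S₁ : Set ℕ)) hR φ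
      (by rw [eigenChar_T]; exact hgW ℓ hℓ (hnot ℓ hℓ₁ hℓq)), map_intCast]
  have hlamO : (lam : O) ∈ IsLocalRing.maximalIdeal O := by
    rw [← map_natCast (algebraMap ℤ_[lam] O)]
    exact map_nonunit _ _ (natCast_mem_maximalIdeal_padicInt lam)
  obtain ⟨A, hA⟩ := Arith.exists_liesOverPrime hq
  obtain ⟨σ, hσ⟩ := Arith.exists_isFrobeniusAt hA hq
  obtain ⟨ε, hε, ht⟩ := trace_frobenius_of_matches_bad hΔ0 hρW hS' hlam
    (Finset.mem_insert_of_mem hlamS₁) hlamO hq hne.symm hqΔ (hss q hq hqΔ) hA hσ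
  have hch := (trace_det_of_charpoly ρ.finrank_eq
    (hρ q hq hqM (by simpa using hqS₁) A hA σ hσ)).1
  have ha : qCoeff g q = ((ε * ((q : ℤ) + 1) : ℤ) : ℂ) := by
    refine hφ _ (hinj ?_)
    rw [map_intCast, ← ht]
    refine Eq.trans ?_ hch.symm
    simp only [RingHom.comp_apply]
    congr 1
    refine congrArg φ (Subtype.ext ?_)
    exact (eigenChar_T hg.1 hq hqM (by simpa using hqS₁)).symm
  refine RT.Lift.qCoeff_sq_ne hq hqM hg.1 ?_
  rw [ha]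
  rcases hε with rfl | rfl <;> push_cast <;> ring

/-- **The end of lifting**: a newform of squarefree level with the traces of `W` at almost all
primes makes `W` modular at exactly its conductor level. -/
theorem isModularModelOfExactConductorLevel_of_newform (h35 : NewformRepInput)
    (hΔ0 : W.Δ ≠ 0) (hss : W.IsSemistableModel) (hg : g.IsNewform) (hM : Squarefree M)
    (T : Finset ℕ) (hgW : ∀ ℓ : ℕ, ℓ.Prime → ℓ ∉ T → qCoeff g ℓ = (W.apOfModel ℓ : ℂ)) :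
    Mlc1IsModularModelOfExactConductorLevel W := by
  classical
  let S : ℕ → Finset ℕ := fun lam =>
    insert lam (T ∪ (M.primeFactors ∪ W.Δ.natAbs.primeFactors))
  have hMS : ∀ lam q : ℕ, q.Prime → q ∣ M → q ∈ S lam := fun lam q hq hd => by
    simp [S, Nat.mem_primeFactors, hq, hd, NeZero.ne M]
  have hS : ∀ lam ℓ : ℕ, ℓ.Prime → ℓ ∉ S lam → W.IsGoodPrimeFor ℓ := fun lam ℓ hℓ h hd => by
    refine h ?_
    simp [S, Nat.mem_primeFactors, hℓ, Int.natCast_dvd.mp hd, hΔ0]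
  have hgS : ∀ lam ℓ : ℕ, ℓ.Prime → ℓ ∉ S lam → qCoeff g ℓ = (W.apOfModel ℓ : ℂ) :=
    fun lam ℓ hℓ h => hgW ℓ hℓ fun hT => h (by simp [S, hT])
  have hsupp : ∀ q : ℕ, q.Prime → (q ∣ M ↔ (q : ℤ) ∣ W.Δ) := by
    refine fun q hq => ⟨fun hqM => ?_, fun hqΔ =>
      dvd_level_of_bad h35 hΔ0 hss hg (hMS 2) (hS 2) (hgS 2) hq hqΔ⟩
    obtain ⟨lam, hlam, hne⟩ : ∃ lam : ℕ, lam.Prime ∧ q ≠ lam := by
      by_cases h2 : q = 2
      · exact ⟨3, Nat.prime_three, by omega⟩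
      · exact ⟨2, Nat.prime_two, h2⟩
    have := Fact.mk hlam
    exact not_not.mp fun hgood => not_good_of_dvd_level h35 hΔ0 hg (hMS lam) (hS lam) (hgS lam)
      (Finset.mem_insert_self _ _) hq hne hqM
      (fun h => hq.not_isUnit (hM q (by rwa [← sq]))) hgood
  exact ⟨M, Nat.pos_of_ne_zero (NeZero.ne M), hM, hsupp, g, hg.1, fun q hq hgood hqM =>
    qCoeff_eq_of_good h35 hΔ0 hg (hMS 2) (hS 2) (hgS 2) hq hgood hqM⟩

end Fermat.Agent.Lifting.Curve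

end
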