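import Fermat.Agent.Lifting.Curve.Sign
import Fermat.Agent.EC.Rep.Tate.Curve

/-!
# Quadratic relations at a prime of multiplicative reduction

`SignRelations ρ W q` states for a two-dimensional `ρ` the relations of `IsFrobSign`: with
`ε = frobSign W q`, a Frobenius element `σ` and inertia elements `τ` of any place over `q` satisfy
`(σ - ε q) (σ - ε) = 0`, `(σ - ε q) (τ - 1) = 0`, `(τ - 1) (σ - ε) = 0` and `(τ - 1) ^ 2 = 0`.
-/

set_option autoImplicit false

noncomputable section

open WeierstrassCurve Polynomial
open scoped WeierstrassCurve.Affine TensorProduct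
open Fermat.Agent.Arith

namespace Fermat.Agent.Lifting.Curve

local notation "Q̄" => AlgebraicClosure ℚ
local notation "GQ" => AlgebraicClosure ℚ ≃ₐ[ℚ] AlgebraicClosure ℚ

variable {R : Type} [CommRing R] {V : Type} [AddCommGroup V] [Module R V]

/-- The relations of a curve multiplicative at `q`, on a representation. -/
def SignRelations (ρ : GQ →* Module.End R V) (W : WeierstrassCurve ℤ) (q : ℕ) : Prop :=
  ∀ A : ValuationSubring Q̄, A.LiesOverPrime q → ∀ σ : GQ, A.IsFrobeniusAt σ q →
    (ρ σ - ((frobSign W q * q : ℤ) : R) • 1) * (ρ σ - ((frobSign W q : ℤ) : R) • 1) = 0 ∧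
    ∀ τ ∈ A.inertiaSubgroupIn ℚ,
      (ρ σ - ((frobSign W q * q : ℤ) : R) • 1) * (ρ τ - 1) = 0 ∧
      (ρ τ - 1) * (ρ σ - ((frobSign W q : ℤ) : R) • 1) = 0 ∧
      (ρ τ - 1) * (ρ τ - 1) = 0

theorem baseChange_sub_smul_one {R' : Type} [CommRing R'] [Algebra R R'] (f : Module.End R V)
    (c : ℤ) :
    LinearMap.baseChange R' (f - (c : R) • (1 : Module.End R V)) =
      LinearMap.baseChange R' f - (c : R') • (1 : Module.End R' (R' ⊗[R] V)) := by
  rw [LinearMap.baseChange_sub, LinearMap.baseChange_smul, LinearMap.baseChange_one,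
    ← algebraMap_smul R' (c : R) (1 : Module.End R' (R' ⊗[R] V)), map_intCast]

/-- The relations pass to a base change. -/
theorem SignRelations.map_baseChange {ρ : GQ →* Module.End R V} {W : WeierstrassCurve ℤ} {q : ℕ}
    (h : SignRelations ρ W q) (R' : Type) [CommRing R'] [Algebra R R']
    {ρ' : GQ →* Module.End R' (R' ⊗[R] V)} (hρ' : ∀ σ, ρ' σ = (ρ σ).baseChange R') :
    SignRelations ρ' W q := by
  intro A hA σ hσ
  obtain ⟨h1, h2⟩ := h A hA σ hσ
  have e1 : ∀ τ, ρ' τ - 1 = LinearMap.baseChange R' (ρ τ - 1) := fun τ => by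
    rw [hρ', LinearMap.baseChange_sub, LinearMap.baseChange_one]
  refine ⟨?_, fun τ hτ => ⟨?_, ?_, ?_⟩⟩
  · rw [hρ', ← baseChange_sub_smul_one, ← baseChange_sub_smul_one, ← LinearMap.baseChange_mul, h1,
      LinearMap.baseChange_zero]
  · rw [e1, hρ', ← baseChange_sub_smul_one, ← LinearMap.baseChange_mul, (h2 τ hτ).1,
      LinearMap.baseChange_zero]
  · rw [e1, hρ', ← baseChange_sub_smul_one, ← LinearMap.baseChange_mul, (h2 τ hτ).2.1,
      LinearMap.baseChange_zero]
  · rw [e1, ← LinearMap.baseChange_mul, (h2 τ hτ).2.2, LinearMap.baseChange_zero]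

/-- An endomorphism in rank two with determinant `a b` and killed by `(X - a) (X - b)` has that
characteristic polynomial, for `a, b ≠ 0` over a domain. -/
theorem charpoly_of_quadratic [IsDomain R] [Module.Free R V] [Module.Finite R V]
    (hV : Module.finrank R V = 2) (f : Module.End R V) {a b : R} (ha : a ≠ 0) (hb : b ≠ 0)
    (hdet : LinearMap.det f = a * b) (h : (f - a • 1) * (f - b • 1) = 0) :
    LinearMap.charpoly f = (X - C a) * (X - C b) := by
  classical
  let B := Module.finBasisOfFinrankEq R V hV
  set M := LinearMap.toMatrix B B f with hM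
  have hMdet : M.det = a * b := by rw [hM, LinearMap.det_toMatrix, hdet]
  have hquad : M * M - (a + b) • M + (a * b) • 1 = 0 := by
    have e := congrArg (LinearMap.toMatrix B B) h
    rw [map_zero, LinearMap.toMatrix_mul, map_sub, map_sub, map_smul, map_smul,
      LinearMap.toMatrix_one, ← hM] at e
    rw [← e]
    simp only [sub_mul, mul_sub, smul_mul_assoc, mul_smul_comm, one_mul, mul_one, smul_sub,
      smul_smul, add_smul, mul_comm b a]
    abel
  have htr : M.trace = a + b := by
    by_cases hns : ∀ c : R, M ≠ c • 1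
    · exact (EC.Rep.trace_det_of_quadratic_of_nonscalar M hquad hns).1
    push Not at hns
    obtain ⟨c, hc⟩ := hns
    have hc2 : c * c = a * b := by
      rw [← hMdet, hc, Matrix.det_smul, Matrix.det_one, Fintype.card_fin, mul_one, sq]
    have hroot : (c - a) * (c - b) = 0 := by
      have e := congrFun (congrFun hquad 0) 0
      rw [hc] at e
      simp [Matrix.mul_apply, Fin.sum_univ_two] at e
      linear_combination e
    rw [hc]
    simp only [Matrix.trace_smul, Matrix.trace_one, Fintype.card_fin, smul_eq_mul, Nat.cast_ofNat]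
    rcases mul_eq_zero.mp hroot with h' | h'
    · rw [sub_eq_zero] at h'
      subst h'
      have : c = b := mul_left_cancel₀ ha hc2
      linear_combination this
    · rw [sub_eq_zero] at h'
      subst h'
      have : c = a := mul_right_cancel₀ hb hc2
      linear_combination this
  rw [← LinearMap.charpoly_toMatrix f B, Matrix.charpoly_fin_two, ← hM, htr, hMdet, map_add,
    map_mul]
  ring

end Fermat.Agent.Lifting.Curve

end
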