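import Fermat.Agent.EC.Multiplicative.Frobenius
import Fermat.Agent.ConductorLevel.Elliptic

/-!
# The sign of a semistable curve at a prime of multiplicative reduction

`frobSign W q = ± 1`: on torsion of order prime to `q`, every Frobenius element `σ` at every place
over `q` satisfies `(σ - ε q) (σ - ε) = 0`, and with an inertia element `τ` at the place
`(σ - ε q) (τ - 1) = 0` and `(τ - 1) (σ - ε) = 0`. The sign is `1` exactly for split reduction.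
-/

set_option autoImplicit false

noncomputable section

open WeierstrassCurve
open scoped WeierstrassCurve.Affine Pointwise
open Fermat.Agent.Arith Fermat.Agent.ConductorLevel

namespace Fermat.Agent.Lifting.Curve

local notation "Q̄" => AlgebraicClosure ℚ
local notation "GQ" => AlgebraicClosure ℚ ≃ₐ[ℚ] AlgebraicClosure ℚ

variable {W : WeierstrassCurve ℤ} {q : ℕ}

/-- The relations between a Frobenius element `σ` and the inertia elements of one place, on one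
torsion point. -/
def SignRel (A : ValuationSubring Q̄) (q : ℕ) (ε : ℤ) (σ : GQ) (P : Pts W) : Prop :=
  σ • (σ • P - ε • P) = (ε * q) • (σ • P - ε • P) ∧
    ∀ τ ∈ A.inertiaSubgroupIn ℚ, σ • (τ • P - P) = (ε * q) • (τ • P - P) ∧
      τ • (σ • P - ε • P) = σ • P - ε • P ∧ τ • (τ • P - P) = τ • P - P

/-- The property of the sign of the curve at `q`. -/
def IsFrobSign (W : WeierstrassCurve ℤ) (q : ℕ) (ε : ℤ) : Prop :=
  (ε = 1 ∨ ε = -1) ∧ ∀ A : ValuationSubring Q̄, A.LiesOverPrime q →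
    ∀ σ : GQ, A.IsFrobeniusAt σ q → ∀ n : ℕ, ¬ q ∣ n → ∀ P : Pts W, n • P = 0 →
      SignRel A q ε σ P

theorem smul_zsmul_point (σ : GQ) (m : ℤ) (P : Pts W) : σ • (m • P) = m • (σ • P) :=
  Affine.Point.algEquiv_smul_zsmul σ m P

theorem smul_add_point (σ : GQ) (P Q : Pts W) : σ • (P + Q) = σ • P + σ • Q :=
  (DistribSMul.toAddMonoidHom (Pts W) σ).map_add P Q

theorem smul_sub_point (σ : GQ) (P Q : Pts W) : σ • (P - Q) = σ • P - σ • Q :=
  (DistribSMul.toAddMonoidHom (Pts W) σ).map_sub P Q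

theorem smul_zero_point (σ : GQ) : σ • (0 : Pts W) = 0 :=
  (DistribSMul.toAddMonoidHom (Pts W) σ).map_zero

theorem inv_smul_smul_point (g : GQ) (P : Pts W) : g • (g⁻¹ • P) = P := by
  rw [← mul_smul, mul_inv_cancel, one_smul]

theorem nsmul_smul_eq_zero (σ : GQ) {n : ℕ} {P : Pts W} (h : n • P = 0) : n • (σ • P) = 0 := by
  rw [show n • (σ • P) = σ • (n • P) from
    ((DistribSMul.toAddMonoidHom _ σ).map_nsmul n P).symm, h, smul_zero_point]

theorem exists_isFrobSign (hΔ0 : W.Δ ≠ 0) (hq : q.Prime) (hqΔ : (q : ℤ) ∣ W.Δ)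
    (hc₄ : ¬ (q : ℤ) ∣ W.c₄) : ∃ ε : ℤ, IsFrobSign W q ε := by
  classical
  obtain ⟨A, hA⟩ := exists_liesOverPrime hq
  obtain ⟨σ₀, hσ₀⟩ := exists_isFrobeniusAt hA hq
  obtain ⟨ε, hε, h0, h1⟩ :=
    EC.Multiplicative.exists_sign_frobenius hA hq hΔ0 hqΔ hc₄ hσ₀
  refine ⟨ε, hε, fun B hB σ hσ n hn P hP => ?_⟩
  -- at the base place
  have hkill : ∀ Q : Pts W, n • Q = 0 → n • (σ₀ • Q - ε • Q) = 0 := fun Q hQ => by
    rw [nsmul_sub, nsmul_smul_eq_zero _ hQ, show n • (ε • Q) = ε • (n • Q) from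
      ((zsmulAddGroupHom ε).map_nsmul n Q).symm, hQ, zsmul_zero, sub_zero]
  have hfix : ∀ τ ∈ A.inertiaSubgroupIn ℚ, ∀ Q : Pts W, n • Q = 0 →
      τ • (σ₀ • Q - ε • Q) = σ₀ • Q - ε • Q := fun τ hτ Q hQ =>
    EC.Reduction.smul_eq_self_of_inE0 W hA hq hτ hn (h0 Q) (hkill Q hQ)
  have hτkill : ∀ (τ : GQ) (Q : Pts W), n • Q = 0 → n • (τ • Q - Q) = 0 := fun τ Q hQ => by
    rw [nsmul_sub, nsmul_smul_eq_zero _ hQ, hQ, sub_zero]
  have hbase : ∀ τ ∈ A.inertiaSubgroupIn ℚ, ∀ Q : Pts W, n • Q = 0 →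
      σ₀ • (τ • Q - Q) = (ε * q) • (τ • Q - Q) ∧ τ • (τ • Q - Q) = τ • Q - Q :=
    fun τ hτ Q hQ => ⟨h1 n hn _ (EC.Multiplicative.inE0_smul_sub_of_semistable hA hq hΔ0
      (fun h => hc₄ h.1) hτ Q) (hτkill τ Q hQ),
      EC.Multiplicative.smul_sub_smul_sub_of_semistable hA hq hΔ0 (fun h => hc₄ h.1) hτ hn hQ⟩
  -- any Frobenius element at the base place
  have hall : ∀ σ' : GQ, A.IsFrobeniusAt σ' q → ∀ Q : Pts W, n • Q = 0 →
      SignRel A q ε σ' Q := by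
    intro σ' hσ' Q hQ
    obtain ⟨τ₀, hτ₀, rfl⟩ : ∃ τ₀ ∈ A.inertiaSubgroupIn ℚ, σ' = σ₀ * τ₀ :=
      ⟨σ₀⁻¹ * σ', inv_mul_mem_inertia hσ' hσ₀, (mul_inv_cancel_left σ₀ σ').symm⟩
    have hd : ∀ R : Pts W, (σ₀ * τ₀) • R - ε • R =
        σ₀ • (τ₀ • R - R) + (σ₀ • R - ε • R) := fun R => by
      rw [mul_smul, smul_sub_point]; abel
    have hfix' : ∀ τ ∈ A.inertiaSubgroupIn ℚ,
        τ • ((σ₀ * τ₀) • Q - ε • Q) = (σ₀ * τ₀) • Q - ε • Q := fun τ hτ => by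
      rw [hd, smul_add_point, hfix τ hτ Q hQ, (hbase τ₀ hτ₀ Q hQ).1, smul_zsmul_point,
        show τ • (τ₀ • Q - Q) = τ₀ • Q - Q from
          EC.Reduction.smul_eq_self_of_inE0 W hA hq hτ hn
            (EC.Multiplicative.inE0_smul_sub_of_semistable hA hq hΔ0 (fun h => hc₄ h.1) hτ₀ Q)
            (hτkill τ₀ Q hQ)]
    refine ⟨?_, fun τ hτ => ⟨?_, hfix' τ hτ, (hbase τ hτ Q hQ).2⟩⟩
    · rw [mul_smul (α := GQ) σ₀ τ₀ ((σ₀ * τ₀) • Q - ε • Q), hfix' τ₀ hτ₀, hd, smul_add_point, zsmul_add,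
        h1 n hn _ (h0 Q) (hkill Q hQ), (hbase τ₀ hτ₀ Q hQ).1, smul_zsmul_point,
        (hbase τ₀ hτ₀ Q hQ).1]
    · rw [mul_smul, show τ₀ • (τ • Q - Q) = τ • Q - Q from
        EC.Reduction.smul_eq_self_of_inE0 W hA hq hτ₀ hn
          (EC.Multiplicative.inE0_smul_sub_of_semistable hA hq hΔ0 (fun h => hc₄ h.1) hτ Q)
          (hτkill τ Q hQ), (hbase τ hτ Q hQ).1]
  -- transport to an arbitrary place
  obtain ⟨g, rfl⟩ := exists_smul_eq hA hB hq
  have hσ' : A.IsFrobeniusAt (g⁻¹ * σ * g) q := by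
    have := isFrobeniusAt_conj (g := g⁻¹) hσ
    rwa [inv_inv, show g⁻¹ • (g • A) = A from by rw [← mul_smul, inv_mul_cancel, one_smul]] at this
  have hP' : n • (g⁻¹ • P) = 0 := nsmul_smul_eq_zero _ hP
  obtain ⟨r1, r2⟩ := hall _ hσ' _ hP'
  have hσP : ∀ R : Pts W, (g⁻¹ * σ * g) • (g⁻¹ • R) = g⁻¹ • (σ • R) := fun R => by
    rw [mul_smul, mul_smul, inv_smul_smul_point]
  refine ⟨?_, fun τ hτ => ?_⟩
  · rw [hσP, ← smul_zsmul_point g⁻¹, ← smul_sub_point, hσP, ← smul_zsmul_point g⁻¹] at r1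
    exact MulAction.injective g⁻¹ r1
  have hτ' : g⁻¹ * τ * g ∈ A.inertiaSubgroupIn ℚ :=
    (mem_inertia_smul_iff (g := g)).mp (by
      rwa [show g * (g⁻¹ * τ * g) * g⁻¹ = τ from by group])
  obtain ⟨s1, s2, s3⟩ := r2 _ hτ'
  have hτP : ∀ R : Pts W, (g⁻¹ * τ * g) • (g⁻¹ • R) = g⁻¹ • (τ • R) := fun R => by
    rw [mul_smul, mul_smul, inv_smul_smul_point]
  refine ⟨?_, ?_, ?_⟩
  · rw [hτP, ← smul_sub_point, hσP, ← smul_zsmul_point g⁻¹] at s1
    exact MulAction.injective g⁻¹ s1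
  · rw [hσP, ← smul_zsmul_point g⁻¹, ← smul_sub_point, hτP] at s2
    exact MulAction.injective g⁻¹ s2
  · rw [hτP, ← smul_sub_point, hτP] at s3
    exact MulAction.injective g⁻¹ s3

open scoped Classical in
/-- The sign of `W` at `q`: `1` for split multiplicative reduction, `-1` for nonsplit. -/
def frobSign (W : WeierstrassCurve ℤ) (q : ℕ) : ℤ :=
  if h : ∃ ε, IsFrobSign W q ε then h.choose else 1

theorem frobSign_eq_one_or (W : WeierstrassCurve ℤ) (q : ℕ) :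
    frobSign W q = 1 ∨ frobSign W q = -1 := by
  unfold frobSign
  split_ifs with h
  · exact h.choose_spec.1
  · exact Or.inl rfl

theorem frobSign_mul_self (W : WeierstrassCurve ℤ) (q : ℕ) : frobSign W q * frobSign W q = 1 := by
  rcases frobSign_eq_one_or W q with h | h <;> rw [h] <;> norm_num

theorem isFrobSign_frobSign (hΔ0 : W.Δ ≠ 0) (hW : W.IsSemistableModel) (hq : q.Prime)
    (hqΔ : (q : ℤ) ∣ W.Δ) : IsFrobSign W q (frobSign W q) := by
  have h := exists_isFrobSign hΔ0 hq hqΔ (hW q hq hqΔ)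
  unfold frobSign
  rw [dif_pos h]
  exact h.choose_spec

end Fermat.Agent.Lifting.Curve

end
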